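import Fermat.Agent.S31.Defs
import Fermat.Agent.S53lib.Burnside

/-!
# T-S31, task L2: a residually absolutely irreducible representation is determined by traces
(in the weak form needed here), and traces are adically continuous.
-/

set_option autoImplicit false

namespace Fermat.Agent.S31lib

open IsLocalRing

/-- a matrix with entries in `I` lies in `I • ⊤` -/
theorem matrix_mem_smul_top {T : Type*} [CommRing T] (I : Ideal T)
    (X : Matrix (Fin 2) (Fin 2) T) (hX : ∀ i j, X i j ∈ I) :
    X ∈ I • (⊤ : Submodule T (Matrix (Fin 2) (Fin 2) T)) := by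
  rw [Matrix.matrix_eq_sum_single X]
  refine Submodule.sum_mem _ fun i _ => Submodule.sum_mem _ fun j _ => ?_
  have : Matrix.single i j (X i j) = X i j • Matrix.single i j (1 : T) := by
    rw [Matrix.smul_single, smul_eq_mul, mul_one]
  rw [this]
  exact Submodule.smul_mem_smul (hX i j) Submodule.mem_top

/-- Burnside + Nakayama + perfectness of the trace form. -/
theorem eq_one_of_trace {T : Type} [CommRing T] [IsLocalRing T] (ρ : GaloisRepAdic T)
    (habs : ρ.residual.IsAbsolutelyIrreducible) (τ : GQ)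
    (h : ∀ g : GQ, ρ.trace (τ * g) = ρ.trace g) : ρ.ρ τ = 1 := by
  classical
  let k := ResidueField T
  let b : Module.Basis (Fin 2) T ρ.V := Module.finBasisOfFinrankEq T ρ.V ρ.finrank_eq
  let bb : Module.Basis (Fin 2) k ρ.residual.V := Algebra.TensorProduct.basis k b
  let r : GQ → Matrix (Fin 2) (Fin 2) T := fun σ => LinearMap.toMatrix b b (ρ.ρ σ)
  have hr : ∀ σ, S53lib.rbarOf ρ.residual bb σ = (r σ).map (algebraMap T k) := by
    intro σ
    exact LinearMap.toMatrix_baseChange (A := k) (ρ.ρ σ) b b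
  have hB := S53lib.span_rbarOf_eq_top' ρ.residual habs bb
  let W : Submodule T (Matrix (Fin 2) (Fin 2) T) := Submodule.span T (Set.range r)
  have hlift : ∀ Y ∈ Submodule.span k (Set.range (S53lib.rbarOf ρ.residual bb)),
      ∃ X ∈ W, X.map (algebraMap T k) = Y := by
    intro Y hY
    induction hY using Submodule.span_induction with
    | mem Y hY =>
      obtain ⟨σ, rfl⟩ := hY
      exact ⟨r σ, Submodule.subset_span ⟨σ, rfl⟩, (hr σ).symm⟩
    | zero => exact ⟨0, W.zero_mem, by simp⟩
    | add Y Y' _ _ h1 h2 =>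
      obtain ⟨X, hX, rfl⟩ := h1
      obtain ⟨X', hX', rfl⟩ := h2
      exact ⟨X + X', W.add_mem hX hX', by simp [Matrix.map_add]⟩
    | smul c Y _ h1 =>
      obtain ⟨X, hX, rfl⟩ := h1
      obtain ⟨c, rfl⟩ := residue_surjective c
      refine ⟨c • X, W.smul_mem c hX, ?_⟩
      ext i j
      simp only [Matrix.map_apply, Matrix.smul_apply, smul_eq_mul, map_mul]
      rfl
  have hW : W = ⊤ := by
    rw [eq_top_iff]
    apply Submodule.le_of_le_smul_of_le_jacobson_bot (I := maximalIdeal T) Module.Finite.fg_top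
      (maximalIdeal_le_jacobson _)
    intro X _
    obtain ⟨X', hX', hXX'⟩ := hlift (X.map (algebraMap T k)) (by rw [hB]; trivial)
    have : X = X' + (X - X') := by abel
    rw [this]
    refine Submodule.add_mem_sup hX' (matrix_mem_smul_top _ _ fun i j => ?_)
    have h1 := congrFun (congrFun hXX' i) j
    simp only [Matrix.map_apply] at h1
    have h2 : residue T (X' i j) = residue T (X i j) := h1
    rw [Matrix.sub_apply, ← residue_eq_zero_iff, map_sub, h2, sub_self]
  have htr : ∀ σ, ρ.trace σ = (r σ).trace := fun σ => LinearMap.trace_eq_matrix_trace T b _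
  have hmul : ∀ σ σ', r (σ * σ') = r σ * r σ' := by
    intro σ σ'
    simp only [r, map_mul]
    exact LinearMap.toMatrix_mul b _ _
  have hZ : ∀ X ∈ W, (r τ * X).trace = ((1 : Matrix (Fin 2) (Fin 2) T) * X).trace := by
    intro X hX
    induction hX using Submodule.span_induction with
    | mem X hX =>
      obtain ⟨g, rfl⟩ := hX
      rw [← hmul, ← htr, h, htr, one_mul]
    | zero => simp
    | add X X' _ _ h1 h2 => rw [mul_add, mul_add, Matrix.trace_add, Matrix.trace_add, h1, h2]
    | smul c X _ h1 =>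
      rw [Matrix.mul_smul, Matrix.mul_smul, Matrix.trace_smul, Matrix.trace_smul, h1]
  have h1 : r τ = 1 := by
    rw [Matrix.ext_iff_trace_mul_right]
    intro X
    exact hZ X (by rw [hW]; trivial)
  apply (LinearMap.toMatrix b b).injective
  rw [LinearMap.toMatrix_one]
  exact h1

/-- coordinates of an element of `I • ⊤` lie in `I` -/
theorem repr_mem_of_mem_smul_top {A V ι : Type*} [CommRing A] [AddCommGroup V] [Module A V]
    (b : Module.Basis ι A V) (I : Ideal A) {x : V} (hx : x ∈ I • (⊤ : Submodule A V)) (i : ι) :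
    b.repr x i ∈ I := by
  induction hx using Submodule.smul_induction_on' with
  | smul a ha w _ =>
    rw [map_smul, Finsupp.smul_apply, smul_eq_mul]
    exact I.mul_mem_right _ ha
  | add x _ y _ hx hy =>
    rw [map_add, Finsupp.add_apply]
    exact I.add_mem hx hy

/-- adic continuity of the trace -/
theorem exists_level_trace {A : Type} [CommRing A] [IsLocalRing A] (ρ : GaloisRepAdic A) (n : ℕ) :
    ∃ L : IntermediateField ℚ Qb, FiniteDimensional ℚ L ∧
      ∀ σ σ' : GQ, (∀ x ∈ L, σ x = σ' x) →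
        ρ.trace σ - ρ.trace σ' ∈ IsLocalRing.maximalIdeal A ^ n := by
  classical
  obtain ⟨L, hL, hcont⟩ := ρ.isAdicContinuous n
  refine ⟨L, hL, fun σ σ' hσ => ?_⟩
  let b : Module.Basis (Fin 2) A ρ.V := Module.finBasisOfFinrankEq A ρ.V ρ.finrank_eq
  have hδ : ∀ x ∈ L, (σ'⁻¹ * σ) x = x := by
    intro x hx
    rw [AlgEquiv.mul_apply, hσ x hx]
    exact σ'.symm_apply_apply x
  have hσσ : σ = σ' * (σ'⁻¹ * σ) := by group
  have hdiff : ρ.ρ σ - ρ.ρ σ' = ρ.ρ σ' * (ρ.ρ (σ'⁻¹ * σ) - 1) := by
    rw [mul_sub, mul_one, ← map_mul, ← hσσ]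
  have hmem : ∀ v, (ρ.ρ σ - ρ.ρ σ') v ∈ (maximalIdeal A ^ n) • (⊤ : Submodule A ρ.V) := by
    intro v
    rw [hdiff, Module.End.mul_apply]
    have h1 := hcont _ hδ v
    have h2 : (ρ.ρ (σ'⁻¹ * σ) - 1) v = ρ.ρ (σ'⁻¹ * σ) v - v := rfl
    rw [h2]
    have h3 := Submodule.mem_map_of_mem (f := ρ.ρ σ') h1
    rw [Submodule.map_smul''] at h3
    exact Submodule.smul_mono le_rfl le_top h3
  have : ρ.trace σ - ρ.trace σ' = LinearMap.trace A ρ.V (ρ.ρ σ - ρ.ρ σ') := by
    rw [map_sub]; rfl
  rw [this, LinearMap.trace_eq_matrix_trace A b, Matrix.trace]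
  refine Ideal.sum_mem _ fun i _ => ?_
  rw [Matrix.diag_apply, LinearMap.toMatrix_apply]
  exact repr_mem_of_mem_smul_top b _ (hmem _) i

end Fermat.Agent.S31lib
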