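import Fermat.Agent.S31.Defs
import Fermat.Agent.S31lib.Points

/-!
# T-S31, task C: enough `p`-adic characters of a reduced finite free `ℤ`-algebra

`exists_chars` (C2) is deduced from `exists_points` (`S31lib/Points.lean`); `exists_pow_comap` (C3)
is a direct valuation computation.  (The former C1 `exists_distinct_ringHoms` was not used anywhere
and has been removed.)
-/

set_option autoImplicit false
open IsLocalRing

namespace Fermat.Agent.S31lib

/-- In a DVR every nonzero element generates a power of the maximal ideal. -/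
theorem exists_span_eq_maximalIdeal_pow {O : Type*} [CommRing O] [IsDomain O]
    [IsDiscreteValuationRing O] {x : O} (hx : x ≠ 0) :
    ∃ e : ℕ, Ideal.span {x} = maximalIdeal O ^ e := by
  obtain ⟨ϖ, hϖ⟩ := IsDiscreteValuationRing.exists_irreducible O
  have h0 : Ideal.span {x} ≠ ⊥ := by
    simpa [Ideal.span_singleton_eq_bot] using hx
  obtain ⟨e, he⟩ := IsDiscreteValuationRing.ideal_eq_span_pow_irreducible h0 hϖ
  refine ⟨e, ?_⟩
  rw [he, hϖ.maximalIdeal_eq, Ideal.span_singleton_pow]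

/-- C2: the characters detect `p`-adic divisibility. -/
theorem exists_chars (p : ℕ) [Fact p.Prime] (A : Type) [CommRing A] [Module.Finite ℤ A]
    [Module.Free ℤ A] [IsReduced A] :
    ∃ (𝒪' : Type) (_ : CommRing 𝒪') (_ : IsDomain 𝒪') (_ : IsDiscreteValuationRing 𝒪')
      (_ : IsAdicComplete (maximalIdeal 𝒪') 𝒪') (_ : Finite (ResidueField 𝒪'))
      (_ : CharZero 𝒪'), (p : 𝒪') ∈ maximalIdeal 𝒪' ∧
      ∃ (r : ℕ) (χ : Fin r → A →+* 𝒪'), ∀ M : ℕ, ∃ n : ℕ, ∀ x : A,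
        (∀ i, χ i x ∈ maximalIdeal 𝒪' ^ n) → ∃ y : A, x = (p : A) ^ M * y := by
  obtain ⟨a, O, i1, i2, i3, i4, i5, i6, hp, hfin, H⟩ := exists_points p A
  refine ⟨O, i1, i2, i3, i4, i5, i6, hp, ?_⟩
  obtain ⟨r, ⟨eqv⟩⟩ := Finite.exists_equiv_fin (A →+* O)
  refine ⟨r, fun i => eqv.symm i, fun M => ?_⟩
  have hp0 : (p : O) ≠ 0 := by
    exact_mod_cast (Fact.out : p.Prime).ne_zero
  obtain ⟨e, he⟩ := exists_span_eq_maximalIdeal_pow hp0
  refine ⟨e * (a + M), fun x hx => ?_⟩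
  have := H x M (fun χ => ?_)
  · obtain ⟨y, hy⟩ := this
    exact ⟨y, hy⟩
  · have h1 : (eqv.symm (eqv χ)) x ∈ maximalIdeal O ^ (e * (a + M)) := hx (eqv χ)
    rw [Equiv.symm_apply_apply, pow_mul, ← he, Ideal.span_singleton_pow,
      Ideal.mem_span_singleton] at h1
    exact h1

/-- C3: smallness descends along a finite injective local extension of DVRs. -/
theorem exists_pow_comap {𝒪' 𝒪'' : Type} [CommRing 𝒪'] [IsDomain 𝒪']
    [IsDiscreteValuationRing 𝒪'] [CommRing 𝒪''] [IsDomain 𝒪''] [IsDiscreteValuationRing 𝒪'']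
    [Algebra 𝒪' 𝒪''] [Module.Finite 𝒪' 𝒪''] [IsLocalHom (algebraMap 𝒪' 𝒪'')]
    (hinj : Function.Injective (algebraMap 𝒪' 𝒪'')) (n : ℕ) :
    ∃ k : ℕ, ∀ y : 𝒪', algebraMap 𝒪' 𝒪'' y ∈ maximalIdeal 𝒪'' ^ k → y ∈ maximalIdeal 𝒪' ^ n := by
  obtain ⟨ϖ, hϖ⟩ := IsDiscreteValuationRing.exists_irreducible 𝒪'
  obtain ⟨π, hπ⟩ := IsDiscreteValuationRing.exists_irreducible 𝒪''
  have h0 : algebraMap 𝒪' 𝒪'' ϖ ≠ 0 := by
    intro h
    exact hϖ.ne_zero (hinj (by rw [h, map_zero]))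
  obtain ⟨e, u, hu⟩ := IsDiscreteValuationRing.eq_unit_mul_pow_irreducible h0 hπ
  refine ⟨e * n, fun y hy => ?_⟩
  by_cases hy0 : y = 0
  · rw [hy0]; exact zero_mem _
  obtain ⟨v, w, hw⟩ := IsDiscreteValuationRing.eq_unit_mul_pow_irreducible hy0 hϖ
  by_cases hvn : n ≤ v
  · rw [hw, hϖ.maximalIdeal_eq, Ideal.span_singleton_pow, Ideal.mem_span_singleton]
    exact Dvd.dvd.mul_left (pow_dvd_pow _ hvn) _
  · exfalso
    have hvn' : v < n := not_le.mp hvn
    have he : e ≠ 0 := by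
      rintro rfl
      rw [pow_zero, mul_one] at hu
      have h1 : IsUnit (algebraMap 𝒪' 𝒪'' ϖ) := hu ▸ u.isUnit
      exact hϖ.not_isUnit (isUnit_of_map_unit _ _ h1)
    rw [hw, map_mul, map_pow, hu, mul_pow, ← pow_mul, hπ.maximalIdeal_eq,
      Ideal.span_singleton_pow, Ideal.mem_span_singleton] at hy
    have hunit : IsUnit (algebraMap 𝒪' 𝒪'' (w : 𝒪') * (u : 𝒪'') ^ v) :=
      (w.isUnit.map _).mul (u.isUnit.pow v)
    rw [← mul_assoc, hunit.dvd_mul_left] at hy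
    have hle := (pow_dvd_pow_iff hπ.ne_zero hπ.not_isUnit).mp hy
    have : e * v < e * n := Nat.mul_lt_mul_of_pos_left hvn' (Nat.pos_of_ne_zero he)
    omega

end Fermat.Agent.S31lib
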