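import Fermat.Agent.S31.Defs
import Fermat.Agent.ES.Z.Cheb

/-!
# T-S31, task Z3: weak Chebotarev: every element of a finite Galois group over `ℚ` is a power of a
Frobenius element (at a prime outside any given finite set).
-/

set_option autoImplicit false

namespace Fermat.Agent.S31lib

theorem exists_frobenius_pow (L : IntermediateField ℚ Qb) [FiniteDimensional ℚ L] (g : GQ)
    (T : Finset ℕ) :
    ∃ ℓ : ℕ, ℓ.Prime ∧ ℓ ∉ T ∧ ∃ A : ValuationSubring Qb, A.LiesOverPrime ℓ ∧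
      ∃ σ : GQ, A.IsFrobeniusAt σ ℓ ∧ ∃ b : ℕ, ∀ x ∈ L, (σ ^ b) x = g x :=
  Fermat.Agent.ESlib.exists_frobenius_pow_eq L g T

end Fermat.Agent.S31lib
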