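import Fermat.Agent.S31.Adjoint

/-!
# T-S31, task P4: positive definiteness, and the Hecke algebra away from the level is reduced
-/

set_option autoImplicit false
open UpperHalfPlane CongruenceSubgroup MeasureTheory CuspForm
open scoped MatrixGroups

namespace Fermat.Agent.S31lib

variable {N : ℕ} [NeZero N] {w : ℍ → ℝ}

theorem pet_add_left (hw : IsWeight N w) (f f' g : CuspForm (Gamma0 N) 2) :
    pet w (f + f') g = pet w f g + pet w f' g := by
  unfold pet
  rw [← integral_add (integrable_pet hw f g) (integrable_pet hw f' g)]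
  refine integral_congr_ae (Filter.Eventually.of_forall fun z => ?_)
  simp only [petersson, FunLike.coe_add, Pi.add_apply, map_add]
  ring

theorem pet_add_right (hw : IsWeight N w) (f g g' : CuspForm (Gamma0 N) 2) :
    pet w f (g + g') = pet w f g + pet w f g' := by
  unfold pet
  rw [← integral_add (integrable_pet hw f g) (integrable_pet hw f g')]
  refine integral_congr_ae (Filter.Eventually.of_forall fun z => ?_)
  simp only [petersson, FunLike.coe_add, Pi.add_apply]
  ring

theorem pet_zsmul_left (n : ℤ) (f g : CuspForm (Gamma0 N) 2) :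
    pet w (n • f) g = n * pet w f g := by
  unfold pet
  rw [← integral_const_mul]
  refine integral_congr_ae (Filter.Eventually.of_forall fun z => ?_)
  have h1 : (n • f : CuspForm (Gamma0 N) 2) z = (n : ℂ) * f z := by
    rw [← Int.cast_smul_eq_zsmul ℂ n f]
    simp
  simp only [petersson, h1, map_mul, map_intCast]
  ring

theorem pet_zsmul_right (n : ℤ) (f g : CuspForm (Gamma0 N) 2) :
    pet w f (n • g) = n * pet w f g := by
  unfold pet
  rw [← integral_const_mul]
  refine integral_congr_ae (Filter.Eventually.of_forall fun z => ?_)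
  have h1 : (n • g : CuspForm (Gamma0 N) 2) z = (n : ℂ) * g z := by
    rw [← Int.cast_smul_eq_zsmul ℂ n g]
    simp
  simp only [petersson, h1]
  ring

/-- nonempty open subsets of `ℍ` have positive volume -/
instance isOpenPosMeasure_volume : (volume : Measure ℍ).IsOpenPosMeasure := by
  constructor
  intro U hU hne h0
  rw [volume_eq_lintegral] at h0
  have hUo : IsOpen ((↑) '' U : Set ℂ) := isOpenEmbedding_coe.isOpenMap U hU
  have hm : Measurable (fun z : ℂ => (((1 / ‖z.im‖₊) ^ 2 : NNReal) : ENNReal)) := by fun_prop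
  rw [lintegral_eq_zero_iff hm, Filter.EventuallyEq, ae_restrict_iff' hUo.measurableSet] at h0
  have h1 : ∀ᵐ z : ℂ, z ∉ ((↑) '' U : Set ℂ) := by
    filter_upwards [h0] with z hz hzU
    have h2 := hz hzU
    obtain ⟨τ, -, rfl⟩ := hzU
    simp at h2
    exact τ.im_ne_zero h2
  have h4 : volume ((↑) '' U : Set ℂ) = 0 := by
    rw [ae_iff] at h1
    simp only [not_not] at h1
    exact h1
  exact (hUo.measure_ne_zero volume (hne.image _)) h4

theorem petersson_self (f : ℍ → ℂ) (z : ℍ) :
    petersson 2 f f z = ((‖f z‖ ^ 2 * z.im ^ 2 : ℝ) : ℂ) := by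
  rw [petersson, mul_comm (starRingEnd ℂ (f z)), Complex.mul_conj, Complex.normSq_eq_norm_sq]
  push_cast
  norm_cast

/-- P4a -/
theorem eq_zero_of_pet_self (hw : IsWeight N w) (f : CuspForm (Gamma0 N) 2)
    (h : pet w f f = 0) : f = 0 := by
  set P : ℍ → ℝ := fun z => ‖f z‖ ^ 2 * z.im ^ 2 with hP
  have hP0 : ∀ z, 0 ≤ P z := fun z => by positivity
  have h1 : pet w f f = ((∫ z, w z * P z : ℝ) : ℂ) := by
    rw [pet, ← integral_complex_ofReal]
    refine integral_congr_ae (Filter.Eventually.of_forall fun z => ?_)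
    simp only [petersson_self, hP]
    push_cast
    ring
  rw [h1, Complex.ofReal_eq_zero] at h
  have hint : Integrable (fun z => w z * P z) := by
    have := (integrable_pet hw f f).re
    refine this.congr (Filter.Eventually.of_forall fun z => ?_)
    simp only [petersson_self, hP]
    rw [← Complex.ofReal_mul]
    exact Complex.ofReal_re _
  have h2 : (fun z => w z * P z) =ᵐ[volume] 0 :=
    (integral_eq_zero_iff_of_nonneg (fun z => mul_nonneg (hw.nonneg z) (hP0 z)) hint).mp h
  -- invariance of `P`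
  have hPinv : ∀ (γ : Gamma0 N) (z : ℍ), P ((γ : SL(2, ℤ)) • z) = P z := by
    intro γ z
    have h3 : petersson 2 f f ((γ : SL(2, ℤ)) • z) = petersson 2 f f z := by
      have := SlashInvariantFormClass.petersson_smul (k := 2) (f := f) (f' := f) (τ := z)
        (g := ((γ : SL(2, ℤ)) : GL (Fin 2) ℝ)) (Subgroup.mem_map_of_mem _ γ.2)
      exact this
    rw [petersson_self, petersson_self] at h3
    exact_mod_cast h3
  have h3 : ∀ γ : Gamma0 N, ∀ᵐ z : ℍ, w ((γ : SL(2, ℤ)) • z) * P z = 0 := by
    intro γ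
    have := (measurePreserving_SL_smul (γ : SL(2, ℤ))).quasiMeasurePreserving.ae h2
    filter_upwards [this] with z hz
    rw [← hPinv γ z]
    exact hz
  have h4 : ∀ᵐ z : ℍ, ∀ γ : Gamma0 N, w ((γ : SL(2, ℤ)) • z) * P z = 0 := ae_all_iff.mpr h3
  have h5 : ∀ᵐ z : ℍ, P z = 0 := by
    filter_upwards [h4] with z hz
    by_contra hne
    have h6 : ∀ γ : Gamma0 N, w ((γ : SL(2, ℤ)) • z) = 0 := fun γ =>
      (mul_eq_zero.mp (hz γ)).resolve_right hne
    have h7 := hw.hasSum z
    simp only [h6] at h7
    exact zero_ne_one (hasSum_zero.unique h7)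
  have h6 : (f : ℍ → ℂ) =ᵐ[volume] 0 := by
    filter_upwards [h5] with z hz
    have h7 : z.im ^ 2 ≠ 0 := pow_ne_zero 2 z.im_ne_zero
    have h8 := (mul_eq_zero.mp hz).resolve_right h7
    simpa using h8
  have hcont : Continuous (f : ℍ → ℂ) := (CuspFormClass.holo f).continuous
  have h7 := (hcont.ae_eq_iff_eq volume continuous_zero).mp h6
  ext z
  exact congrFun h7 z

/-- every element of the Hecke algebra away from the level is self-adjoint -/
theorem pet_apply_of_mem (hw : IsWeight N w) (S : Set ℕ)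
    (hS : ∀ q : ℕ, q.Prime → q ∣ N → q ∈ S)
    (t : Module.End ℂ (CuspForm (Gamma0 N) 2)) (ht : t ∈ heckeAlgebra N 2 S)
    (f g : CuspForm (Gamma0 N) 2) : pet w (t f) g = pet w f (t g) := by
  unfold heckeAlgebra at ht
  induction ht using Algebra.adjoin_induction generalizing f g with
  | mem x hx =>
    rcases hx with ⟨ℓ, hℓ, hℓN, -, rfl⟩ | ⟨q, hqN, hq, hqS, rfl⟩
    · exact pet_heckeT hw hℓ hℓN f g
    · exact absurd (hS q hq hqN) hqS
  | algebraMap n =>
    have h1 : ∀ f : CuspForm (Gamma0 N) 2,
        (algebraMap ℤ (Module.End ℂ (CuspForm (Gamma0 N) 2)) n) f = n • f := by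
      intro f
      rw [Algebra.algebraMap_eq_smul_one]
      simp
    rw [h1, h1, pet_zsmul_left, pet_zsmul_right]
  | add x y _ _ hx hy =>
    rw [LinearMap.add_apply, LinearMap.add_apply, pet_add_left hw, pet_add_right hw, hx, hy]
  | mul x y hx' hy' hx hy =>
    have hcomm : x * y = y * x := by
      have := mul_comm (⟨x, hx'⟩ : heckeAlgebra N 2 S) ⟨y, hy'⟩
      exact congrArg Subtype.val this
    rw [Module.End.mul_apply, hx, hy, ← Module.End.mul_apply, ← hcomm]

/-- P4 -/
theorem isReduced_heckeAlgebra (N : ℕ) [NeZero N] (S : Set ℕ)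
    (hS : ∀ q : ℕ, q.Prime → q ∣ N → q ∈ S) : IsReduced (heckeAlgebra N 2 S) := by
  obtain ⟨w, hw⟩ := exists_isWeight N
  rw [isReduced_iff_pow_one_lt 2 one_lt_two]
  intro t ht
  apply Subtype.ext
  apply LinearMap.ext
  intro f
  have h1 : (t : Module.End ℂ (CuspForm (Gamma0 N) 2)) * t = 0 := by
    have := congrArg Subtype.val ht
    rw [pow_two] at this
    exact this
  apply eq_zero_of_pet_self hw
  rw [pet_apply_of_mem hw S hS t t.2, ← Module.End.mul_apply, h1]
  have := pet_zsmul_right (w := w) 0 f f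
  simpa using this

end Fermat.Agent.S31lib
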