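import Fermat.Agent.S31.Lucas
import Fermat.Agent.S31.Burnside
import Fermat.Agent.S31.Cheb
import Fermat.Agent.S31.Chars
import Fermat.Agent.S31.Reduced
import Fermat.Agent.S22

/-!
# T-S31, task ASM: S31 from the statement of S30
-/

set_option autoImplicit false
open Polynomial IsLocalRing CuspForm

namespace Fermat.Agent.S31lib

theorem trace_pow_frob {A : Type} [CommRing A] [IsLocalRing A] (ρ : GaloisRepAdic A) (σ : GQ)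
    (t d : A) (h : LinearMap.charpoly (ρ.ρ σ) = X ^ 2 - C t * X + C d) (b : ℕ) :
    ρ.trace (σ ^ b) = lucas t d b := by
  rw [GaloisRepAdic.trace, map_pow]
  exact trace_pow_eq_lucas ρ.finrank_eq _ t d h b

section

variable {p : ℕ} {N : ℕ} [NeZero N] {S : Finset ℕ}

/-- the element of the Hecke algebra computing `tr ρ (Frob_ℓ ^ b)` -/
noncomputable def frobTr (N : ℕ) [NeZero N] (S : Finset ℕ) {ℓ : ℕ} (hℓ : ℓ.Prime) (hℓN : ¬ ℓ ∣ N)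
    (hℓS : ℓ ∉ (↑S : Set ℕ)) (b : ℕ) : heckeAlgebra N 2 (↑S : Set ℕ) :=
  lucas (heckeAlgebra.T hℓ hℓN hℓS) ((ℓ : ℕ) : heckeAlgebra N 2 (↑S : Set ℕ)) b

set_option maxHeartbeats 1000000 in
/-- the consequence of S30 for one `p`-adic character -/
theorem exists_level_char (hS30 : S30Statement) [Fact p.Prime] (hpS : p ∈ S)
    (hNS : ∀ q : ℕ, q.Prime → q ∣ N → q ∈ S)
    (𝒪' : Type) [CommRing 𝒪'] [IsDomain 𝒪'] [IsDiscreteValuationRing 𝒪']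
    [IsAdicComplete (maximalIdeal 𝒪') 𝒪'] [Finite (ResidueField 𝒪')]
    [CharZero 𝒪'] (hp𝒪' : (p : 𝒪') ∈ maximalIdeal 𝒪')
    (χ : heckeAlgebra N 2 (↑S : Set ℕ) →+* 𝒪')
    (q : ℕ) (hq : q.Prime) (hqS : q ∉ S) (P : ValuationSubring Qb) (hP : P.LiesOverPrime q)
    (τ : GQ) (hτ : τ ∈ P.inertiaSubgroupIn ℚ) (n : ℕ) :
    ∃ L : IntermediateField ℚ Qb, FiniteDimensional ℚ L ∧ ∀ (g : GQ)
      (ℓ : ℕ) (hℓ : ℓ.Prime) (hℓN : ¬ ℓ ∣ N) (hℓS : ℓ ∉ (↑S : Set ℕ))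
      (A : ValuationSubring Qb) (_ : A.LiesOverPrime ℓ) (σ : GQ) (_ : A.IsFrobeniusAt σ ℓ) (b : ℕ)
      (ℓ' : ℕ) (hℓ' : ℓ'.Prime) (hℓN' : ¬ ℓ' ∣ N) (hℓS' : ℓ' ∉ (↑S : Set ℕ))
      (A' : ValuationSubring Qb) (_ : A'.LiesOverPrime ℓ') (σ' : GQ) (_ : A'.IsFrobeniusAt σ' ℓ')
      (b' : ℕ), (∀ x ∈ L, (σ ^ b) x = g x) → (∀ x ∈ L, (σ' ^ b') x = (τ * g) x) →
      χ (frobTr N S hℓ hℓN hℓS b - frobTr N S hℓ' hℓN' hℓS' b') ∈ maximalIdeal 𝒪' ^ n := by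
  obtain ⟨𝒪'', _, _, _, _, _, _, _, _, _, hinj, ρ, hfrob, hunr⟩ :=
    hS30 p N S hpS hNS 𝒪' hp𝒪' χ
  obtain ⟨k, hk⟩ := exists_pow_comap hinj n
  obtain ⟨L, hLfin, hL⟩ := exists_level_trace ρ k
  refine ⟨L, hLfin, ?_⟩
  intro g ℓ hℓ hℓN hℓS A hA σ hσ b ℓ' hℓ' hℓN' hℓS' A' hA' σ' hσ' b' h1 h2
  apply hk
  have hqN : ¬ q ∣ N := fun h => hqS (hNS q hq h)
  have hqp : q ≠ p := fun h => hqS (h ▸ hpS)
  have hτ1 : ρ.ρ τ = 1 := hunr q hq hqN hqp P hP τ hτ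
  have htr : ρ.trace (τ * g) = ρ.trace g := by
    rw [GaloisRepAdic.trace, GaloisRepAdic.trace, map_mul, hτ1, one_mul]
  have e1 : algebraMap 𝒪' 𝒪'' (χ (frobTr N S hℓ hℓN hℓS b)) = ρ.trace (σ ^ b) := by
    rw [trace_pow_frob ρ σ _ _ (hfrob ℓ hℓ hℓN hℓS A hA σ hσ) b, frobTr, map_lucas, map_lucas,
      map_natCast, map_natCast]
  have e2 : algebraMap 𝒪' 𝒪'' (χ (frobTr N S hℓ' hℓN' hℓS' b')) = ρ.trace (σ' ^ b') := by
    rw [trace_pow_frob ρ σ' _ _ (hfrob ℓ' hℓ' hℓN' hℓS' A' hA' σ' hσ') b', frobTr, map_lucas,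
      map_lucas, map_natCast, map_natCast]
  rw [map_sub, map_sub, e1, e2]
  have h3 := hL (σ ^ b) g h1
  have h4 := hL (σ' ^ b') (τ * g) h2
  rw [htr] at h4
  have := Ideal.sub_mem _ h3 h4
  rwa [sub_sub_sub_cancel_right] at this

end

variable {p : ℕ} {N : ℕ} [NeZero N] {S : Finset ℕ}
  {𝒪 : Type} [CommRing 𝒪] [IsDomain 𝒪] [IsDiscreteValuationRing 𝒪]
  [IsAdicComplete (IsLocalRing.maximalIdeal 𝒪) 𝒪]
  {θ : CuspForm.heckeAlgebra N 2 (↑S : Set ℕ) →+* IsLocalRing.ResidueField 𝒪}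
  {T : Type} [CommRing T] [IsLocalRing T] [IsNoetherianRing T]
  [IsAdicComplete (IsLocalRing.maximalIdeal T) T] [Algebra 𝒪 T] [IsLocalHom (algebraMap 𝒪 T)]
  [Module.Finite 𝒪 T] [Module.Free 𝒪 T]

set_option maxHeartbeats 2000000 in
theorem main (hS30 : S30Statement) (hp : p.Prime)
    (hp𝒪 : (p : 𝒪) ∈ IsLocalRing.maximalIdeal 𝒪) (hpS : p ∈ S)
    (hNS : ∀ q : ℕ, q.Prime → q ∣ N → q ∈ S)
    (H : CuspForm.HeckeGaloisRepDatum N (↑S : Set ℕ) 𝒪 θ T)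
    (q : ℕ) (hq : q.Prime) (hqS : q ∉ S) :
    H.ρ.IsUnramifiedAt q := by
  have : Fact p.Prime := ⟨hp⟩
  have hfin : Module.Finite ℤ (heckeAlgebra N 2 (↑S : Set ℕ)) := Fermat.Agent.S22.result N 2 _
  have hfree : Module.Free ℤ (heckeAlgebra N 2 (↑S : Set ℕ)) :=
    Module.free_of_finite_type_torsion_free'
  have hred : IsReduced (heckeAlgebra N 2 (↑S : Set ℕ)) :=
    isReduced_heckeAlgebra N _ (fun q hq hqN => Finset.mem_coe.mpr (hNS q hq hqN))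
  intro P hP τ hτ
  apply eq_one_of_trace H.ρ H.residual_absIrr τ
  intro g
  rw [← sub_eq_zero]
  have hkrull : (⨅ i : ℕ, maximalIdeal T ^ i) = ⊥ :=
    Ideal.iInf_pow_eq_bot_of_isLocalRing _ (Ideal.IsPrime.ne_top inferInstance)
  rw [← Ideal.mem_bot, ← hkrull, Ideal.mem_iInf]
  intro n
  -- the characters
  obtain ⟨𝒪', _, _, _, _, _, _, hp𝒪', r, χ, hχ⟩ := exists_chars p (heckeAlgebra N 2 (↑S : Set ℕ))
  obtain ⟨n', hn'⟩ := hχ n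
  choose L hLfin hL using fun i : Fin r =>
    exists_level_char hS30 hpS hNS 𝒪' hp𝒪' (χ i) q hq hqS P hP τ hτ n'
  obtain ⟨L₀, hL₀fin, hL₀⟩ := exists_level_trace H.ρ n
  let LL : IntermediateField ℚ Qb := L₀ ⊔ ⨆ i, L i
  have : FiniteDimensional ℚ LL := by
    have := hL₀fin
    have := hLfin
    have : FiniteDimensional ℚ (⨆ i, L i : IntermediateField ℚ Qb) :=
      IntermediateField.finiteDimensional_iSup_of_finite
    exact IntermediateField.finiteDimensional_sup _ _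
  have hL₀le : L₀ ≤ LL := le_sup_left
  have hLle : ∀ i, L i ≤ LL := fun i => (le_iSup L i).trans le_sup_right
  obtain ⟨ℓ, hℓ, hℓS, A, hA, σ, hσ, b, hb⟩ := exists_frobenius_pow LL g S
  obtain ⟨ℓ', hℓ', hℓS', A', hA', σ', hσ', b', hb'⟩ := exists_frobenius_pow LL (τ * g) S
  have hℓN : ¬ ℓ ∣ N := fun h => hℓS (hNS ℓ hℓ h)
  have hℓN' : ¬ ℓ' ∣ N := fun h => hℓS' (hNS ℓ' hℓ' h)
  have hℓS₁ : ℓ ∉ (↑S : Set ℕ) := fun h => hℓS (Finset.mem_coe.mp h)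
  have hℓS₁' : ℓ' ∉ (↑S : Set ℕ) := fun h => hℓS' (Finset.mem_coe.mp h)
  obtain ⟨y, hy⟩ := hn' (frobTr N S hℓ hℓN hℓS₁ b - frobTr N S hℓ' hℓN' hℓS₁' b') (fun i =>
    hL i g ℓ hℓ hℓN hℓS₁ A hA σ hσ b ℓ' hℓ' hℓN' hℓS₁' A' hA' σ' hσ' b'
      (fun x hx => hb x (hLle i hx)) (fun x hx => hb' x (hLle i hx)))
  have hpT : (p : T) ∈ maximalIdeal T := by
    have h1 : algebraMap 𝒪 T (p : 𝒪) ∈ maximalIdeal T := by
      rw [IsLocalRing.mem_maximalIdeal, mem_nonunits_iff] at hp𝒪 ⊢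
      exact fun h => hp𝒪 (isUnit_of_map_unit (algebraMap 𝒪 T) _ h)
    simpa using h1
  have e1 : H.π (frobTr N S hℓ hℓN hℓS₁ b) = H.ρ.trace (σ ^ b) := by
    rw [trace_pow_frob H.ρ σ _ _ (H.charpoly_frob ℓ hℓ hℓN hℓS₁ A hA σ hσ) b, frobTr, map_lucas,
      map_natCast]
  have e2 : H.π (frobTr N S hℓ' hℓN' hℓS₁' b') = H.ρ.trace (σ' ^ b') := by
    rw [trace_pow_frob H.ρ σ' _ _ (H.charpoly_frob ℓ' hℓ' hℓN' hℓS₁' A' hA' σ' hσ') b', frobTr,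
      map_lucas, map_natCast]
  have h5 : H.ρ.trace (σ ^ b) - H.ρ.trace (σ' ^ b') ∈ maximalIdeal T ^ n := by
    rw [← e1, ← e2, ← map_sub, hy, map_mul, map_pow, map_natCast]
    exact Ideal.mul_mem_right _ _ (Ideal.pow_mem_pow hpT n)
  have h3 := hL₀ (σ ^ b) g (fun x hx => hb x (hL₀le hx))
  have h4 := hL₀ (σ' ^ b') (τ * g) (fun x hx => hb' x (hL₀le hx))
  have h6 : H.ρ.trace (τ * g) - H.ρ.trace g =
      (H.ρ.trace (σ ^ b) - H.ρ.trace g) - (H.ρ.trace (σ' ^ b') - H.ρ.trace (τ * g))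
        - (H.ρ.trace (σ ^ b) - H.ρ.trace (σ' ^ b')) := by ring
  rw [h6]
  exact Ideal.sub_mem _ (Ideal.sub_mem _ h3 h4) h5

end Fermat.Agent.S31lib
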