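import Mathlib

/-!
# T-S31, task P2: the abstract bi-weight lemma (pure measure theory)
-/

set_option autoImplicit false
open MeasureTheory

namespace Fermat.Agent.S31lib

/-- interchange of sum and integral for the bi-weight kernel -/
theorem biweight_integral_tsum {X : Type*} [MeasurableSpace X] {μ : Measure X} {E : Type*}
    [Countable E]
    (w : X → ℝ) (hwm : Measurable w) (hw0 : ∀ x, 0 ≤ w x) (hwi : Integrable w μ)
    (a : E → X → X) (ha : ∀ ε, Measurable (a ε))
    (c : ℝ) (hsum : ∀ x, HasSum (fun ε => w (a ε x)) c)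
    (K : E → X → ℂ) (hK : ∀ ε, Measurable (K ε))
    (C : ℝ) (hKC : ∀ ε x, ‖K ε x‖ ≤ C) :
    ∫ x, (w x : ℂ) * ∑' ε, (w (a ε x) : ℂ) * K ε x ∂μ =
      ∑' ε, ∫ x, (w x : ℂ) * ((w (a ε x) : ℂ) * K ε x) ∂μ := by
  have hmeas : ∀ ε, Measurable (fun x => (w x : ℂ) * ((w (a ε x) : ℂ) * K ε x)) := by
    intro ε
    have h1 : Measurable (fun x => (w x : ℂ)) := Complex.measurable_ofReal.comp hwm
    have h2 : Measurable (fun x => (w (a ε x) : ℂ)) :=
      Complex.measurable_ofReal.comp (hwm.comp (ha ε))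
    exact h1.mul (h2.mul (hK ε))
  rw [← integral_tsum (fun ε => (hmeas ε).aestronglyMeasurable)]
  · refine integral_congr_ae (Filter.Eventually.of_forall fun x => ?_)
    simp only
    rw [tsum_mul_left]
  · rw [← lintegral_tsum (fun ε => (hmeas ε).enorm.aemeasurable)]
    have hbound : ∀ x, ∑' ε, ‖(w x : ℂ) * ((w (a ε x) : ℂ) * K ε x)‖ₑ ≤
        ENNReal.ofReal (c * C) * ENNReal.ofReal (w x) := by
      intro x
      have h1 : ∀ ε, ‖(w x : ℂ) * ((w (a ε x) : ℂ) * K ε x)‖ₑ ≤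
          ENNReal.ofReal (w x) * (ENNReal.ofReal (w (a ε x)) * ENNReal.ofReal C) := by
        intro ε
        rw [enorm_mul, enorm_mul]
        have e1 : ∀ r : ℝ, 0 ≤ r → ‖(r : ℂ)‖ₑ = ENNReal.ofReal r := by
          intro r hr
          rw [← ofReal_norm, Complex.norm_real, Real.norm_of_nonneg hr]
        rw [e1 _ (hw0 x), e1 _ (hw0 _)]
        gcongr
        rw [← ofReal_norm]
        exact ENNReal.ofReal_le_ofReal (hKC ε x)
      calc ∑' ε, ‖(w x : ℂ) * ((w (a ε x) : ℂ) * K ε x)‖ₑ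
          ≤ ∑' ε, ENNReal.ofReal (w x) * (ENNReal.ofReal (w (a ε x)) * ENNReal.ofReal C) :=
            ENNReal.tsum_le_tsum h1
        _ = ENNReal.ofReal (w x) * ((∑' ε, ENNReal.ofReal (w (a ε x))) * ENNReal.ofReal C) := by
            rw [ENNReal.tsum_mul_left, ENNReal.tsum_mul_right]
        _ = ENNReal.ofReal (w x) * (ENNReal.ofReal c * ENNReal.ofReal C) := by
            rw [← ENNReal.ofReal_tsum_of_nonneg (fun ε => hw0 _) (hsum x).summable,
              (hsum x).tsum_eq]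
        _ = ENNReal.ofReal (c * C) * ENNReal.ofReal (w x) := by
            have hc : 0 ≤ c := (hsum x).nonneg fun ε => hw0 _
            rw [ENNReal.ofReal_mul hc, mul_comm]
    refine ne_of_lt (lt_of_le_of_lt (lintegral_mono hbound) ?_)
    rw [lintegral_const_mul' _ _ ENNReal.ofReal_ne_top]
    refine ENNReal.mul_lt_top ENNReal.ofReal_lt_top ?_
    have := hwi.2
    rw [hasFiniteIntegral_iff_ofReal (Filter.Eventually.of_forall hw0)] at this
    exact this

/-- `E` a countable index set of measure preserving maps `a ε`, with an involution `ι` such that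
`a (ι ε)` is inverse to `a ε`; kernels `K`, `K'` exchanged by the substitution. -/
theorem biweight {X : Type*} [MeasurableSpace X] {μ : Measure X} {E : Type*} [Countable E]
    (w : X → ℝ) (hwm : Measurable w) (hw0 : ∀ x, 0 ≤ w x) (hwi : Integrable w μ)
    (a : E → X → X) (ha : ∀ ε, MeasurePreserving (a ε) μ μ)
    (ι : E ≃ E) (hι : ∀ ε x, a (ι ε) (a ε x) = x)
    (c : ℝ) (hsum : ∀ x, HasSum (fun ε => w (a ε x)) c)
    (K K' : E → X → ℂ) (hK : ∀ ε, Measurable (K ε)) (hK' : ∀ ε, Measurable (K' ε))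
    (C : ℝ) (hKC : ∀ ε x, ‖K ε x‖ ≤ C) (hKC' : ∀ ε x, ‖K' ε x‖ ≤ C)
    (hKK' : ∀ ε x, K ε x = K' (ι ε) (a ε x)) :
    ∫ x, (w x : ℂ) * ∑' ε, (w (a ε x) : ℂ) * K ε x ∂μ =
      ∫ x, (w x : ℂ) * ∑' ε, (w (a ε x) : ℂ) * K' ε x ∂μ := by
  rw [biweight_integral_tsum w hwm hw0 hwi a (fun ε => (ha ε).measurable) c hsum K hK C hKC,
    biweight_integral_tsum w hwm hw0 hwi a (fun ε => (ha ε).measurable) c hsum K' hK' C hKC',
    ← ι.tsum_eq (fun ε => ∫ x, (w x : ℂ) * ((w (a ε x) : ℂ) * K' ε x) ∂μ)]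
  refine tsum_congr fun ε => ?_
  have hG : Measurable (fun y => (w y : ℂ) * ((w (a (ι ε) y) : ℂ) * K' (ι ε) y)) := by
    have h1 : Measurable (fun x => (w x : ℂ)) := Complex.measurable_ofReal.comp hwm
    have h2 : Measurable (fun x => (w (a (ι ε) x) : ℂ)) :=
      Complex.measurable_ofReal.comp (hwm.comp (ha (ι ε)).measurable)
    exact h1.mul (h2.mul (hK' (ι ε)))
  have h := integral_map (μ := μ) (ha ε).measurable.aemeasurable
    (f := fun y => (w y : ℂ) * ((w (a (ι ε) y) : ℂ) * K' (ι ε) y)) hG.aestronglyMeasurable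
  rw [(ha ε).map_eq] at h
  rw [h]
  refine integral_congr_ae (Filter.Eventually.of_forall fun x => ?_)
  simp only
  rw [hι, hKK']
  ring

end Fermat.Agent.S31lib
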