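import Mathlib
import Fermat.Prelude.Def_ModularForm_HeckeOperator

/-!
# T-S31, task P3 (combinatorial part): the set `Δ` of integer matrices of determinant `ℓ` with
lower left entry divisible by `N`, the adjugate involution, and `Δ = ⨆_j Γ₀(N) β_j`.
-/

set_option autoImplicit false
open Matrix CongruenceSubgroup UpperHalfPlane
open scoped MatrixGroups ModularForm

namespace Fermat.Agent.S31lib

/-- integer matrices of determinant `ℓ` whose lower left entry is divisible by `N` -/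
def Del (N ℓ : ℕ) : Type :=
  {M : Matrix (Fin 2) (Fin 2) ℤ // M.det = (ℓ : ℤ) ∧ (N : ℤ) ∣ M 1 0}

variable {N ℓ : ℕ}

instance : Countable (Del N ℓ) := by
  have : Countable (Matrix (Fin 2) (Fin 2) ℤ) := inferInstanceAs (Countable (Fin 2 → Fin 2 → ℤ))
  exact Subtype.countable

/-- the adjugate -/
def Del.adj (M : Del N ℓ) : Del N ℓ :=
  ⟨!![M.1 1 1, -M.1 0 1; -M.1 1 0, M.1 0 0], by
    have h := M.2.1
    rw [Matrix.det_fin_two] at h
    rw [Matrix.det_fin_two_of]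
    linarith, by
    simpa using M.2.2⟩

theorem Del.adj_adj (M : Del N ℓ) : M.adj.adj = M := by
  apply Subtype.ext
  ext i j
  fin_cases i <;> fin_cases j <;> simp [Del.adj]

/-- the adjugate involution -/
def Del.adjEquiv : Del N ℓ ≃ Del N ℓ where
  toFun := Del.adj
  invFun := Del.adj
  left_inv := Del.adj_adj
  right_inv := Del.adj_adj

/-- the standard representatives, as integer matrices -/
def repZ (ℓ : ℕ) : Option (Fin ℓ) → Matrix (Fin 2) (Fin 2) ℤ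
  | none => !![(ℓ : ℤ), 0; 0, 1]
  | some j => !![1, ((j : ℕ) : ℤ); 0, (ℓ : ℤ)]

/-- the standard representatives, as elements of `GL₂(ℝ)` (prelude matrices) -/
noncomputable def repGL (ℓ : ℕ) : Option (Fin ℓ) → GL (Fin 2) ℝ
  | none => ModularForm.heckeDiagMatrix ℓ
  | some j => ModularForm.heckeMatrix ℓ j

theorem det_repZ (x : Option (Fin ℓ)) : (repZ ℓ x).det = ℓ := by
  cases x <;> simp [repZ, Matrix.det_fin_two_of]

/-- `(j, γ) ↦ γ β_j` -/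
def Del.ofPair (x : Option (Fin ℓ) × Gamma0 N) : Del N ℓ :=
  ⟨((x.2 : SL(2, ℤ)) : Matrix (Fin 2) (Fin 2) ℤ) * repZ ℓ x.1, by
    rw [Matrix.det_mul, det_repZ, Matrix.SpecialLinearGroup.det_coe, one_mul], by
    have h : (N : ℤ) ∣ (x.2 : SL(2, ℤ)) 1 0 := by
      have := x.2.2
      rw [Gamma0_mem] at this
      exact (ZMod.intCast_zmod_eq_zero_iff_dvd _ _).1 this
    rcases x with ⟨_ | j, γ⟩
    · simp only [repZ, Matrix.mul_apply, Fin.sum_univ_two]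
      simpa using Dvd.dvd.mul_right h _
    · simp only [repZ, Matrix.mul_apply, Fin.sum_univ_two]
      simpa using h⟩

theorem Del.ofPair_injective (hℓ : ℓ.Prime) :
    Function.Injective (Del.ofPair : Option (Fin ℓ) × Gamma0 N → Del N ℓ) := by
  have hℓ0 : (ℓ : ℤ) ≠ 0 := by exact_mod_cast hℓ.ne_zero
  have hℓp : Prime (ℓ : ℤ) := Nat.prime_iff_prime_int.1 hℓ
  rintro ⟨x, γ⟩ ⟨x', γ'⟩ h
  have h' := congrArg Subtype.val h
  simp only [Del.ofPair] at h'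
  have e00 := congrFun (congrFun h' 0) 0
  have e01 := congrFun (congrFun h' 0) 1
  have e10 := congrFun (congrFun h' 1) 0
  have e11 := congrFun (congrFun h' 1) 1
  have d := (γ : SL(2, ℤ)).det_coe
  have d' := (γ' : SL(2, ℤ)).det_coe
  rw [Matrix.det_fin_two] at d d'
  have key : ∀ (hx : x = x'), (γ : SL(2, ℤ)) 0 0 = (γ' : SL(2, ℤ)) 0 0 →
      (γ : SL(2, ℤ)) 0 1 = (γ' : SL(2, ℤ)) 0 1 → (γ : SL(2, ℤ)) 1 0 = (γ' : SL(2, ℤ)) 1 0 →
      (γ : SL(2, ℤ)) 1 1 = (γ' : SL(2, ℤ)) 1 1 →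
      ((x, γ) : Option (Fin ℓ) × Gamma0 N) = (x', γ') := by
    intro hx h00 h01 h10 h11
    refine Prod.ext hx (Subtype.ext (Subtype.ext ?_))
    ext i j
    fin_cases i <;> fin_cases j
    · exact h00
    · exact h01
    · exact h10
    · exact h11
  rcases x with _ | j <;> rcases x' with _ | j'
  · simp only [repZ, Matrix.mul_apply, Fin.sum_univ_two] at e00 e01 e10 e11
    simp at e00 e01 e10 e11
    exact key rfl (e00.resolve_right hℓ.ne_zero) e01 (e10.resolve_right hℓ.ne_zero) e11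
  · exfalso
    simp only [repZ, Matrix.mul_apply, Fin.sum_univ_two] at e00 e01 e10 e11
    simp at e00 e01 e10 e11
    have : (ℓ : ℤ) ∣ 1 := by
      rw [← d', ← e00, ← e10]
      exact ⟨(γ : SL(2, ℤ)) 0 0 * (γ' : SL(2, ℤ)) 1 1 - (γ' : SL(2, ℤ)) 0 1 * (γ : SL(2, ℤ)) 1 0,
        by ring⟩
    exact hℓp.not_isUnit (isUnit_of_dvd_one this)
  · exfalso
    simp only [repZ, Matrix.mul_apply, Fin.sum_univ_two] at e00 e01 e10 e11
    simp at e00 e01 e10 e11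
    have : (ℓ : ℤ) ∣ 1 := by
      rw [← d, e00, e10]
      exact ⟨(γ' : SL(2, ℤ)) 0 0 * (γ : SL(2, ℤ)) 1 1 - (γ : SL(2, ℤ)) 0 1 * (γ' : SL(2, ℤ)) 1 0,
        by ring⟩
    exact hℓp.not_isUnit (isUnit_of_dvd_one this)
  · simp only [repZ, Matrix.mul_apply, Fin.sum_univ_two] at e00 e01 e10 e11
    simp at e00 e01 e10 e11
    have hdvd : (ℓ : ℤ) ∣ ((j : ℕ) : ℤ) - ((j' : ℕ) : ℤ) := by
      refine ⟨(γ : SL(2, ℤ)) 1 1 * ((γ' : SL(2, ℤ)) 0 1 - (γ : SL(2, ℤ)) 0 1) -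
        (γ : SL(2, ℤ)) 0 1 * ((γ' : SL(2, ℤ)) 1 1 - (γ : SL(2, ℤ)) 1 1), ?_⟩
      have h1 : (γ : SL(2, ℤ)) 0 0 * (((j : ℕ) : ℤ) - ((j' : ℕ) : ℤ)) =
          (ℓ : ℤ) * ((γ' : SL(2, ℤ)) 0 1 - (γ : SL(2, ℤ)) 0 1) := by
        rw [← e00] at e01; linarith
      have h2 : (γ : SL(2, ℤ)) 1 0 * (((j : ℕ) : ℤ) - ((j' : ℕ) : ℤ)) =
          (ℓ : ℤ) * ((γ' : SL(2, ℤ)) 1 1 - (γ : SL(2, ℤ)) 1 1) := by
        rw [← e10] at e11; linarith
      calc ((j : ℕ) : ℤ) - ((j' : ℕ) : ℤ)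
          = ((γ : SL(2, ℤ)) 0 0 * (γ : SL(2, ℤ)) 1 1 - (γ : SL(2, ℤ)) 0 1 * (γ : SL(2, ℤ)) 1 0) *
            (((j : ℕ) : ℤ) - ((j' : ℕ) : ℤ)) := by rw [d, one_mul]
        _ = (γ : SL(2, ℤ)) 1 1 * ((γ : SL(2, ℤ)) 0 0 * (((j : ℕ) : ℤ) - ((j' : ℕ) : ℤ))) -
            (γ : SL(2, ℤ)) 0 1 * ((γ : SL(2, ℤ)) 1 0 * (((j : ℕ) : ℤ) - ((j' : ℕ) : ℤ))) := by ring
        _ = _ := by rw [h1, h2]; ring
    have hjj : ((j : ℕ) : ℤ) = ((j' : ℕ) : ℤ) := by
      have h1 : |((j : ℕ) : ℤ) - ((j' : ℕ) : ℤ)| < (ℓ : ℤ) := by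
        have a1 : ((j : ℕ) : ℤ) < ℓ := by exact_mod_cast j.2
        have a2 : ((j' : ℕ) : ℤ) < ℓ := by exact_mod_cast j'.2
        have a3 : (0 : ℤ) ≤ ((j : ℕ) : ℤ) := Int.natCast_nonneg _
        have a4 : (0 : ℤ) ≤ ((j' : ℕ) : ℤ) := Int.natCast_nonneg _
        rw [abs_lt]; constructor <;> linarith
      have := Int.eq_zero_of_abs_lt_dvd hdvd h1
      linarith
    have hj : j = j' := Fin.ext (by exact_mod_cast hjj)
    subst hj
    refine key rfl e00 ?_ e10 ?_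
    · rw [e00] at e01
      have : (γ : SL(2, ℤ)) 0 1 * (ℓ : ℤ) = (γ' : SL(2, ℤ)) 0 1 * (ℓ : ℤ) := by linarith
      exact mul_right_cancel₀ hℓ0 this
    · rw [e10] at e11
      have : (γ : SL(2, ℤ)) 1 1 * (ℓ : ℤ) = (γ' : SL(2, ℤ)) 1 1 * (ℓ : ℤ) := by linarith
      exact mul_right_cancel₀ hℓ0 this


theorem exists_residue (hℓ : ℓ.Prime) (a b c d : ℤ) (hdet : a * d - b * c = ℓ)
    (h : ¬ ((ℓ : ℤ) ∣ a ∧ (ℓ : ℤ) ∣ c)) :
    ∃ j : Fin ℓ, (ℓ : ℤ) ∣ b - a * ((j : ℕ) : ℤ) ∧ (ℓ : ℤ) ∣ d - c * ((j : ℕ) : ℤ) := by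
  have hℓp : Prime (ℓ : ℤ) := Nat.prime_iff_prime_int.1 hℓ
  have hℓpos : (0 : ℤ) < ℓ := by exact_mod_cast hℓ.pos
  obtain ⟨j0, h1, h2⟩ : ∃ j0 : ℤ, (ℓ : ℤ) ∣ b - a * j0 ∧ (ℓ : ℤ) ∣ d - c * j0 := by
    by_cases ha : (ℓ : ℤ) ∣ a
    · have hc : ¬ (ℓ : ℤ) ∣ c := fun hc => h ⟨ha, hc⟩
      obtain ⟨x, y, hxy⟩ := (hℓp.coprime_iff_not_dvd).2 hc
      refine ⟨y * d, ?_, ⟨d * x, ?_⟩⟩
      · have h3 : (ℓ : ℤ) ∣ c * (b - a * (y * d)) := by
          refine ⟨-1 + x * a * d, ?_⟩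
          have : y * c = 1 - x * ℓ := by linarith
          calc c * (b - a * (y * d)) = b * c - (y * c) * (a * d) := by ring
            _ = b * c - (1 - x * ℓ) * (a * d) := by rw [this]
            _ = -(a * d - b * c) + x * ℓ * (a * d) := by ring
            _ = _ := by rw [hdet]; ring
        exact (hℓp.dvd_or_dvd h3).resolve_left hc
      · have : y * c = 1 - x * ℓ := by linarith
        calc d - c * (y * d) = d * (1 - y * c) := by ring
          _ = _ := by rw [this]; ring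
    · obtain ⟨x, y, hxy⟩ := (hℓp.coprime_iff_not_dvd).2 ha
      refine ⟨y * b, ⟨b * x, ?_⟩, ?_⟩
      · have : y * a = 1 - x * ℓ := by linarith
        calc b - a * (y * b) = b * (1 - y * a) := by ring
          _ = _ := by rw [this]; ring
      · have h3 : (ℓ : ℤ) ∣ a * (d - c * (y * b)) := by
          refine ⟨1 + x * b * c, ?_⟩
          have : y * a = 1 - x * ℓ := by linarith
          calc a * (d - c * (y * b)) = a * d - (y * a) * (b * c) := by ring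
            _ = a * d - (1 - x * ℓ) * (b * c) := by rw [this]
            _ = (a * d - b * c) + x * ℓ * (b * c) := by ring
            _ = _ := by rw [hdet]; ring
        exact (hℓp.dvd_or_dvd h3).resolve_left ha
  have hj0 : 0 ≤ j0 % (ℓ : ℤ) := Int.emod_nonneg _ hℓpos.ne'
  have hj1 : j0 % (ℓ : ℤ) < ℓ := Int.emod_lt_of_pos _ hℓpos
  refine ⟨⟨(j0 % (ℓ : ℤ)).toNat, by
    have := (Int.toNat_lt hj0).2 hj1
    exact this⟩, ?_, ?_⟩
  · simp only [Int.toNat_of_nonneg hj0]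
    have : b - a * (j0 % (ℓ : ℤ)) = (b - a * j0) + (ℓ : ℤ) * (a * (j0 / ℓ)) := by
      have := Int.emod_add_mul_ediv j0 ℓ
      have h4 : j0 % (ℓ : ℤ) = j0 - ℓ * (j0 / ℓ) := by linarith
      rw [h4]; ring
    rw [this]
    exact dvd_add h1 (dvd_mul_right _ _)
  · simp only [Int.toNat_of_nonneg hj0]
    have : d - c * (j0 % (ℓ : ℤ)) = (d - c * j0) + (ℓ : ℤ) * (c * (j0 / ℓ)) := by
      have := Int.emod_add_mul_ediv j0 ℓ
      have h4 : j0 % (ℓ : ℤ) = j0 - ℓ * (j0 / ℓ) := by linarith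
      rw [h4]; ring
    rw [this]
    exact dvd_add h2 (dvd_mul_right _ _)

theorem Del.ofPair_surjective (hℓ : ℓ.Prime) (hℓN : ¬ ℓ ∣ N) :
    Function.Surjective (Del.ofPair : Option (Fin ℓ) × Gamma0 N → Del N ℓ) := by
  have hℓ0 : (ℓ : ℤ) ≠ 0 := by exact_mod_cast hℓ.ne_zero
  have hℓp : Prime (ℓ : ℤ) := Nat.prime_iff_prime_int.1 hℓ
  rintro ⟨M, hdet, hN⟩
  rw [Matrix.det_fin_two] at hdet
  by_cases h : (ℓ : ℤ) ∣ M 0 0 ∧ (ℓ : ℤ) ∣ M 1 0
  · obtain ⟨⟨a', ha'⟩, ⟨c', hc'⟩⟩ := h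
    have hd : a' * M 1 1 - M 0 1 * c' = 1 := by
      apply mul_left_cancel₀ hℓ0
      rw [ha', hc'] at hdet
      linarith
    have hNc : (N : ℤ) ∣ c' := by
      have hcop : IsCoprime (N : ℤ) (ℓ : ℤ) := by
        have : Nat.Coprime N ℓ := ((Nat.Prime.coprime_iff_not_dvd hℓ).2 hℓN).symm
        exact Nat.isCoprime_iff_coprime.2 this
      rw [hc'] at hN
      exact hcop.dvd_of_dvd_mul_left hN
    refine ⟨(none, ⟨⟨!![a', M 0 1; c', M 1 1], by rw [Matrix.det_fin_two_of]; exact hd⟩, ?_⟩), ?_⟩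
    · exact Gamma0_mem.2 (by simpa using (ZMod.intCast_zmod_eq_zero_iff_dvd _ _).2 hNc)
    · apply Subtype.ext
      ext i j
      fin_cases i <;> fin_cases j <;>
        simp [Del.ofPair, repZ, ha', hc', mul_comm]
  · obtain ⟨j, ⟨u, hu⟩, ⟨v, hv⟩⟩ := exists_residue hℓ (M 0 0) (M 0 1) (M 1 0) (M 1 1) hdet h
    have hd : M 0 0 * v - u * M 1 0 = 1 := by
      apply mul_left_cancel₀ hℓ0
      have : (ℓ : ℤ) * (M 0 0 * v - u * M 1 0) = M 0 0 * ((ℓ : ℤ) * v) - ((ℓ : ℤ) * u) * M 1 0 := by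
        ring
      rw [this, ← hu, ← hv]
      linarith
    refine ⟨(some j, ⟨⟨!![M 0 0, u; M 1 0, v], by rw [Matrix.det_fin_two_of]; exact hd⟩, ?_⟩), ?_⟩
    · exact Gamma0_mem.2 (by simpa using (ZMod.intCast_zmod_eq_zero_iff_dvd _ _).2 hN)
    · apply Subtype.ext
      ext i k
      fin_cases i <;> fin_cases k
      · simp [Del.ofPair, repZ]
      · simp [Del.ofPair, repZ]
        linarith
      · simp [Del.ofPair, repZ]
      · simp [Del.ofPair, repZ]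
        linarith

/-- `Δ = ⨆_j Γ₀(N) β_j` -/
noncomputable def Del.equivPair (hℓ : ℓ.Prime) (hℓN : ¬ ℓ ∣ N) :
    Option (Fin ℓ) × Gamma0 N ≃ Del N ℓ :=
  Equiv.ofBijective Del.ofPair ⟨Del.ofPair_injective hℓ, Del.ofPair_surjective hℓ hℓN⟩


theorem smul_eq_self_of_scalar (P : GL (Fin 2) ℝ) (c : ℝ) (hc : 0 < c)
    (hP : (P : Matrix (Fin 2) (Fin 2) ℝ) = !![c, 0; 0, c]) (z : ℍ) : P • z = z := by
  have hdet : 0 < P.det.val := by
    rw [Matrix.GeneralLinearGroup.val_det_apply, hP, Matrix.det_fin_two_of]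
    nlinarith
  apply UpperHalfPlane.ext
  rw [UpperHalfPlane.coe_smul_of_det_pos hdet]
  have hc' : (c : ℂ) ≠ 0 := by exact_mod_cast hc.ne'
  simp [UpperHalfPlane.num, UpperHalfPlane.denom, hP]
  field_simp

theorem slash_eq_self_of_scalar (P : GL (Fin 2) ℝ) (c : ℝ) (hc : 0 < c)
    (hP : (P : Matrix (Fin 2) (Fin 2) ℝ) = !![c, 0; 0, c]) (f : ℍ → ℂ) : f ∣[(2 : ℤ)] P = f := by
  have hdet' : P.det.val = c * c := by
    rw [Matrix.GeneralLinearGroup.val_det_apply, hP, Matrix.det_fin_two_of]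
    ring
  have hdet : 0 < P.det.val := by rw [hdet']; nlinarith
  funext z
  have hc' : (c : ℂ) ≠ 0 := by exact_mod_cast hc.ne'
  rw [ModularForm.slash_apply, smul_eq_self_of_scalar P c hc hP, UpperHalfPlane.σ, if_pos hdet,
    hdet']
  have hden : denom P z = c := by simp [UpperHalfPlane.denom, hP]
  rw [hden, abs_of_pos (by nlinarith : 0 < c * c)]
  simp only [ContinuousAlgEquiv.refl_apply]
  push_cast
  have : ((c : ℂ) * c) ^ (1 : ℤ) * (c : ℂ) ^ (-(2 : ℤ)) = 1 := by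
    rw [_root_.zpow_one, _root_.zpow_neg]
    field_simp
  rw [mul_assoc, this, mul_one]


section ToGL

variable [NeZero ℓ]

theorem Del.det_map_ne_zero (M : Del N ℓ) : (M.1.map (Int.cast : ℤ → ℝ)).det ≠ 0 := by
  have h : (M.1.map (Int.cast : ℤ → ℝ)).det = ((M.1.det : ℤ) : ℝ) := (Int.cast_det M.1).symm
  rw [h, M.2.1]
  exact_mod_cast NeZero.ne ℓ

/-- an element of `Δ` as an element of `GL₂(ℝ)` -/
noncomputable def Del.toGL (M : Del N ℓ) : GL (Fin 2) ℝ :=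
  Matrix.GeneralLinearGroup.mkOfDetNeZero (M.1.map (Int.cast : ℤ → ℝ)) M.det_map_ne_zero

theorem Del.val_toGL (M : Del N ℓ) :
    (M.toGL : Matrix (Fin 2) (Fin 2) ℝ) = M.1.map (Int.cast : ℤ → ℝ) := rfl

theorem Del.det_toGL (M : Del N ℓ) : (M.toGL.det : ℝ) = ℓ := by
  rw [Matrix.GeneralLinearGroup.val_det_apply, Del.val_toGL]
  have h : (M.1.map (Int.cast : ℤ → ℝ)).det = ((M.1.det : ℤ) : ℝ) := (Int.cast_det M.1).symm
  rw [h, M.2.1]
  simp

theorem Del.det_toGL_pos (M : Del N ℓ) : 0 < (M.toGL.det : ℝ) := by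
  rw [M.det_toGL]
  exact_mod_cast Nat.pos_of_ne_zero (NeZero.ne ℓ)

theorem val_repGL (x : Option (Fin ℓ)) :
    (repGL ℓ x : Matrix (Fin 2) (Fin 2) ℝ) = (repZ ℓ x).map (Int.cast : ℤ → ℝ) := by
  rcases x with _ | j
  · rw [repGL, repZ, ModularForm.val_heckeDiagMatrix (NeZero.ne ℓ)]
    ext i k
    fin_cases i <;> fin_cases k <;> simp
  · rw [repGL, repZ, ModularForm.val_heckeMatrix (NeZero.ne ℓ)]
    ext i k
    fin_cases i <;> fin_cases k <;> simp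

theorem Del.toGL_ofPair (x : Option (Fin ℓ) × Gamma0 N) :
    (Del.ofPair x).toGL = Matrix.SpecialLinearGroup.mapGL ℝ (x.2 : SL(2, ℤ)) * repGL ℓ x.1 := by
  apply Units.ext
  rw [Del.val_toGL, Units.val_mul, val_repGL]
  simp only [Del.ofPair]
  have := Matrix.map_mul (L := ((x.2 : SL(2, ℤ)) : Matrix (Fin 2) (Fin 2) ℤ)) (M := repZ ℓ x.1)
    (f := Int.castRingHom ℝ)
  simp only [Int.coe_castRingHom] at this
  rw [this]
  congr 1

theorem Del.val_adj_mul (M : Del N ℓ) :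
    ((M.adj.toGL * M.toGL : GL (Fin 2) ℝ) : Matrix (Fin 2) (Fin 2) ℝ) = !![(ℓ : ℝ), 0; 0, (ℓ : ℝ)] := by
  rw [Units.val_mul, Del.val_toGL, Del.val_toGL]
  have h := M.2.1
  rw [Matrix.det_fin_two] at h
  have h' : ((M.1 0 0 : ℤ) : ℝ) * (M.1 1 1 : ℤ) - (M.1 0 1 : ℤ) * (M.1 1 0 : ℤ) = ℓ := by
    exact_mod_cast h
  ext i k
  fin_cases i <;> fin_cases k
  · simp [Del.adj, Matrix.mul_apply, Fin.sum_univ_two]
    linarith
  · simp [Del.adj, Matrix.mul_apply, Fin.sum_univ_two]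
    ring
  · simp [Del.adj, Matrix.mul_apply, Fin.sum_univ_two]
    ring
  · simp [Del.adj, Matrix.mul_apply, Fin.sum_univ_two]
    linarith

theorem Del.adj_smul_smul (M : Del N ℓ) (z : ℍ) : M.adj.toGL • (M.toGL • z) = z := by
  rw [← mul_smul]
  exact smul_eq_self_of_scalar _ ℓ (by exact_mod_cast Nat.pos_of_ne_zero (NeZero.ne ℓ))
    M.val_adj_mul z

theorem Del.slash_adj_slash (M : Del N ℓ) (f : ℍ → ℂ) :
    (f ∣[(2 : ℤ)] M.adj.toGL) ∣[(2 : ℤ)] M.toGL = f := by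
  rw [← SlashAction.slash_mul]
  exact slash_eq_self_of_scalar _ ℓ (by exact_mod_cast Nat.pos_of_ne_zero (NeZero.ne ℓ))
    M.val_adj_mul f

end ToGL

end Fermat.Agent.S31lib
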