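import Fermat.Agent.S31.Weight
import Fermat.Agent.S31.BiWeight
import Fermat.Agent.S31.Delta
import Fermat.Prelude.Thm_ModularForm_heckeT_slash_eq_self_of_mem_Gamma0

/-!
# T-S31, task P3: the Petersson product and self-adjointness of `T_ℓ`, `ℓ ∤ N`
-/

set_option autoImplicit false
set_option linter.unusedSectionVars false
open UpperHalfPlane CongruenceSubgroup MeasureTheory CuspForm
open scoped MatrixGroups ModularForm

namespace Fermat.Agent.S31lib

/-- the Petersson product attached to a weight function -/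
noncomputable def pet {N : ℕ} (w : ℍ → ℝ) (f g : CuspForm (Gamma0 N) 2) : ℂ :=
  ∫ z : ℍ, (w z : ℂ) * petersson 2 f g z

variable {N : ℕ} [NeZero N] {w : ℍ → ℝ}

/-- P3a -/
theorem integrable_pet (hw : IsWeight N w) (f g : CuspForm (Gamma0 N) 2) :
    Integrable (fun z : ℍ => (w z : ℂ) * petersson 2 f g z) := by
  obtain ⟨C, hC⟩ := CuspFormClass.petersson_bounded_left 2
    (Gamma0 N : Subgroup (GL (Fin 2) ℝ)) f g
  have h1 : Integrable (fun z : ℍ => (w z : ℂ)) := hw.integrable.ofReal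
  have h2 : Continuous (petersson 2 f g) := by fun_prop
  exact h1.mul_bdd (c := C) h2.aestronglyMeasurable (Filter.Eventually.of_forall hC)

theorem norm_petersson_le (F G : ℍ → ℂ) (z : ℍ) :
    ‖petersson 2 F G z‖ ≤ (‖petersson 2 F F z‖ + ‖petersson 2 G G z‖) / 2 := by
  simp only [petersson, norm_mul, RCLike.norm_conj, norm_zpow, Complex.norm_real]
  have h : 0 ≤ ‖z.im‖ ^ (2 : ℤ) := by positivity
  nlinarith [mul_nonneg (sq_nonneg (‖F z‖ - ‖G z‖)) h]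

theorem continuous_slash (f : CuspForm (Gamma0 N) 2) (g : GL (Fin 2) ℝ) :
    Continuous (f ∣[(2 : ℤ)] g) := by
  have : Continuous (ModularForm.translate f g) := by fun_prop
  rwa [ModularForm.coe_translate] at this


section Hecke

variable {ℓ : ℕ} [NeZero ℓ]

theorem smul_ofPair (x : Option (Fin ℓ) × Gamma0 N) (z : ℍ) :
    (Del.ofPair x).toGL • z = (x.2 : SL(2, ℤ)) • (repGL ℓ x.1 • z) := by
  rw [Del.toGL_ofPair, mul_smul]
  rfl

theorem summable_pair (hw : IsWeight N w) (z : ℍ) :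
    Summable (fun x : Option (Fin ℓ) × Gamma0 N => w ((x.2 : SL(2, ℤ)) • (repGL ℓ x.1 • z))) := by
  rw [summable_prod_of_nonneg (fun x => hw.nonneg _)]
  exact ⟨fun x => (hw.hasSum (repGL ℓ x • z)).summable, (hasSum_fintype _).summable⟩

/-- the key pointwise unfolding identity -/
theorem hasSum_del (hw : IsWeight N w) (hℓ : ℓ.Prime) (hℓN : ¬ ℓ ∣ N) (z : ℍ)
    (Φ : GL (Fin 2) ℝ → ℂ)
    (hΦ : ∀ (γ : Gamma0 N) (x : Option (Fin ℓ)),
      Φ (Matrix.SpecialLinearGroup.mapGL ℝ (γ : SL(2, ℤ)) * repGL ℓ x) = Φ (repGL ℓ x)) :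
    HasSum (fun δ : Del N ℓ => (w (δ.toGL • z) : ℂ) * Φ δ.toGL)
      (∑ x : Option (Fin ℓ), Φ (repGL ℓ x)) := by
  rw [← (Del.equivPair hℓ hℓN).hasSum_iff]
  have hfun : ((fun δ : Del N ℓ => (w (δ.toGL • z) : ℂ) * Φ δ.toGL) ∘ (Del.equivPair hℓ hℓN)) =
      fun x : Option (Fin ℓ) × Gamma0 N =>
        (w ((x.2 : SL(2, ℤ)) • (repGL ℓ x.1 • z)) : ℂ) * Φ (repGL ℓ x.1) := by
    funext x
    show (w ((Del.ofPair x).toGL • z) : ℂ) * Φ (Del.ofPair x).toGL = _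
    rw [smul_ofPair, Del.toGL_ofPair, hΦ]
  rw [hfun]
  have hsummable : Summable (fun x : Option (Fin ℓ) × Gamma0 N =>
        (w ((x.2 : SL(2, ℤ)) • (repGL ℓ x.1 • z)) : ℂ) * Φ (repGL ℓ x.1)) := by
    refine Summable.of_norm_bounded
      (g := fun x : Option (Fin ℓ) × Gamma0 N => w ((x.2 : SL(2, ℤ)) • (repGL ℓ x.1 • z)) *
        ∑ y : Option (Fin ℓ), ‖Φ (repGL ℓ y)‖) ((summable_pair hw z).mul_right _) ?_
    intro x
    rw [norm_mul, Complex.norm_real, Real.norm_of_nonneg (hw.nonneg _)]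
    refine mul_le_mul_of_nonneg_left ?_ (hw.nonneg _)
    exact Finset.single_le_sum (f := fun y : Option (Fin ℓ) => ‖Φ (repGL ℓ y)‖)
      (fun _ _ => norm_nonneg _) (Finset.mem_univ x.1)
  rw [hsummable.hasSum_iff, hsummable.tsum_prod, tsum_fintype]
  refine Finset.sum_congr rfl fun x _ => ?_
  show ∑' c : Gamma0 N, (w ((c : SL(2, ℤ)) • (repGL ℓ x • z)) : ℂ) * Φ (repGL ℓ x) = _
  rw [tsum_mul_right]
  have h1 : HasSum (fun γ : Gamma0 N => ((w ((γ : SL(2, ℤ)) • (repGL ℓ x • z)) : ℝ) : ℂ))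
      ((1 : ℝ) : ℂ) := Complex.hasSum_ofReal.2 (hw.hasSum _)
  rw [h1.tsum_eq]
  simp

theorem hasSum_del_real (hw : IsWeight N w) (hℓ : ℓ.Prime) (hℓN : ¬ ℓ ∣ N) (z : ℍ) :
    HasSum (fun δ : Del N ℓ => w (δ.toGL • z)) ((ℓ : ℝ) + 1) := by
  have h := hasSum_del hw hℓ hℓN z (fun _ => 1) (fun _ _ => rfl)
  simp only [mul_one, Finset.sum_const, Finset.card_univ, Fintype.card_option, Fintype.card_fin,
    nsmul_eq_mul] at h
  rw [← Complex.hasSum_ofReal]
  push_cast at h ⊢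
  exact h


theorem heckeT_eq_sum (F : ℍ → ℂ) :
    ModularForm.heckeT 2 ℓ F = ∑ x : Option (Fin ℓ), F ∣[(2 : ℤ)] repGL ℓ x := by
  rw [Fintype.sum_option, ModularForm.heckeT_def, Finset.sum_range, add_comm]
  rfl

theorem petersson_sum_left {ι : Type*} (s : Finset ι) (F : ι → ℍ → ℂ) (G : ℍ → ℂ) (z : ℍ) :
    petersson 2 (∑ i ∈ s, F i) G z = ∑ i ∈ s, petersson 2 (F i) G z := by
  simp only [petersson, Finset.sum_apply, map_sum, Finset.sum_mul]

theorem petersson_sum_right {ι : Type*} (s : Finset ι) (F : ℍ → ℂ) (G : ι → ℍ → ℂ) (z : ℍ) :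
    petersson 2 F (∑ i ∈ s, G i) z = ∑ i ∈ s, petersson 2 F (G i) z := by
  simp only [petersson, Finset.sum_apply, Finset.mul_sum, Finset.sum_mul]

theorem slash_mapGL_mul (f : CuspForm (Gamma0 N) 2) (γ : Gamma0 N) (g : GL (Fin 2) ℝ) :
    (f : ℍ → ℂ) ∣[(2 : ℤ)] (Matrix.SpecialLinearGroup.mapGL ℝ (γ : SL(2, ℤ)) * g) =
      (f : ℍ → ℂ) ∣[(2 : ℤ)] g := by
  rw [SlashAction.slash_mul]
  congr 1
  exact SlashInvariantFormClass.slash_action_eq f _ (Subgroup.mem_map_of_mem _ γ.2)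

theorem petersson_slash_self (M : Del N ℓ) (F G : ℍ → ℂ) (z : ℍ) :
    petersson 2 (F ∣[(2 : ℤ)] M.toGL) (G ∣[(2 : ℤ)] M.toGL) z = petersson 2 F G (M.toGL • z) := by
  rw [petersson_slash, UpperHalfPlane.σ, if_pos M.det_toGL_pos]
  simp

end Hecke

/-- P3 -/
theorem pet_heckeT (hw : IsWeight N w) {ℓ : ℕ} (hℓ : ℓ.Prime) (hℓN : ¬ ℓ ∣ N)
    (f g : CuspForm (Gamma0 N) 2) :
    pet w (heckeTLin 2 hℓ hℓN f) g = pet w f (heckeTLin 2 hℓ hℓN g) := by
  have : NeZero ℓ := ⟨hℓ.ne_zero⟩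
  obtain ⟨Cf, hCf⟩ := CuspFormClass.petersson_bounded_left 2
    (Gamma0 N : Subgroup (GL (Fin 2) ℝ)) f f
  obtain ⟨Cg, hCg⟩ := CuspFormClass.petersson_bounded_left 2
    (Gamma0 N : Subgroup (GL (Fin 2) ℝ)) g g
  have key := biweight (μ := (volume : Measure ℍ)) (E := Del N ℓ) w hw.measurable hw.nonneg
    hw.integrable (fun δ z => δ.toGL • z) (fun δ => measurePreserving_smul δ.toGL volume)
    Del.adjEquiv (fun δ z => δ.adj_smul_smul z) ((ℓ : ℝ) + 1) (hasSum_del_real hw hℓ hℓN)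
    (fun δ z => petersson 2 ((f : ℍ → ℂ) ∣[(2 : ℤ)] δ.toGL) g z)
    (fun δ z => petersson 2 f ((g : ℍ → ℂ) ∣[(2 : ℤ)] δ.toGL) z)
    (fun δ => (petersson_continuous 2 (continuous_slash f _) (by fun_prop)).measurable)
    (fun δ => (petersson_continuous 2 (by fun_prop) (continuous_slash g _)).measurable)
    ((Cf + Cg) / 2)
    (fun δ z => by
      refine (norm_petersson_le _ _ z).trans ?_
      rw [petersson_slash_self]
      have := hCf (δ.toGL • z)
      have := hCg z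
      linarith)
    (fun δ z => by
      refine (norm_petersson_le _ _ z).trans ?_
      rw [petersson_slash_self]
      have := hCg (δ.toGL • z)
      have := hCf z
      linarith)
    (fun δ z => by
      show petersson 2 ((f : ℍ → ℂ) ∣[(2 : ℤ)] δ.toGL) g z =
        petersson 2 f ((g : ℍ → ℂ) ∣[(2 : ℤ)] δ.adj.toGL) (δ.toGL • z)
      rw [← petersson_slash_self, Del.slash_adj_slash])
  have hL : ∀ z : ℍ, ∑' δ : Del N ℓ, (w (δ.toGL • z) : ℂ) *
      petersson 2 ((f : ℍ → ℂ) ∣[(2 : ℤ)] δ.toGL) g z = petersson 2 (heckeTLin 2 hℓ hℓN f) g z := by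
    intro z
    rw [(hasSum_del hw hℓ hℓN z (fun δ => petersson 2 ((f : ℍ → ℂ) ∣[(2 : ℤ)] δ) g z)
      (fun γ x => by simp only [slash_mapGL_mul])).tsum_eq, coe_heckeTLin_apply, heckeT_eq_sum,
      petersson_sum_left]
  have hR : ∀ z : ℍ, ∑' δ : Del N ℓ, (w (δ.toGL • z) : ℂ) *
      petersson 2 f ((g : ℍ → ℂ) ∣[(2 : ℤ)] δ.toGL) z = petersson 2 f (heckeTLin 2 hℓ hℓN g) z := by
    intro z
    rw [(hasSum_del hw hℓ hℓN z (fun δ => petersson 2 f ((g : ℍ → ℂ) ∣[(2 : ℤ)] δ) z)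
      (fun γ x => by simp only [slash_mapGL_mul])).tsum_eq, coe_heckeTLin_apply, heckeT_eq_sum,
      petersson_sum_right]
  simp only [hL, hR] at key
  exact key

end Fermat.Agent.S31lib
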