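import Fermat.Agent.S31.Defs

/-!
# T-S31, task L1: traces of powers of `2 × 2` matrices
-/

set_option autoImplicit false
open Polynomial

namespace Fermat.Agent.S31lib

theorem map_lucas {R R' : Type*} [CommRing R] [CommRing R'] (φ : R →+* R') (t d : R) (b : ℕ) :
    φ (lucas t d b) = lucas (φ t) (φ d) b := by
  induction b using Nat.twoStepInduction with
  | zero => simp only [lucas, map_ofNat]
  | one => simp [lucas]
  | more n h1 h2 => simp only [lucas, map_sub, map_mul, h1, h2]

theorem trace_pow_eq_lucas {R V : Type*} [CommRing R] [AddCommGroup V] [Module R V]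
    [Module.Free R V] [Module.Finite R V] (hV : Module.finrank R V = 2) (f : Module.End R V)
    (t d : R) (h : LinearMap.charpoly f = X ^ 2 - C t * X + C d) (b : ℕ) :
    LinearMap.trace R V (f ^ b) = lucas t d b := by
  nontriviality R
  have hCH : f ^ 2 = t • f - d • 1 := by
    have := LinearMap.aeval_self_charpoly f
    rw [h] at this
    simp only [map_add, map_sub, map_pow, aeval_X, map_mul, aeval_C,
      Module.algebraMap_end_eq_smul_id] at this
    rw [← sub_eq_zero, ← this]
    ext v
    simp only [LinearMap.sub_apply, LinearMap.add_apply, LinearMap.smul_apply,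
      Module.End.mul_apply, LinearMap.id_apply, Module.End.one_apply]
    abel
  have htr : LinearMap.trace R V f = t := by
    let bs := Module.finBasisOfFinrankEq R V hV
    rw [LinearMap.trace_eq_matrix_trace R bs, Matrix.trace_eq_neg_charpoly_coeff,
      LinearMap.charpoly_toMatrix f bs, h]
    simp [coeff_C]
  induction b using Nat.twoStepInduction with
  | zero => simp [lucas, hV]
  | one => simpa [lucas] using htr
  | more n h1 h2 =>
    have : f ^ (n + 2) = t • f ^ (n + 1) - d • f ^ n := by
      rw [pow_add, hCH, mul_sub, mul_smul_comm, mul_smul_comm, mul_one, ← pow_succ]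
    rw [this, map_sub, map_smul, map_smul, h1, h2]
    simp [lucas]

end Fermat.Agent.S31lib
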