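import Mathlib
import Fermat.Prelude.Def_CuspForm_HeckeAlgebra

/-!
# T-S31, task P1: a weight function for `Γ₀(N)` acting on the upper half plane

`w ≥ 0` measurable, integrable for the invariant measure, `∑_{γ ∈ Γ₀(N)} w (γ z) = 1`.
Construction: `D = ModularGroup.fd`, `Θ z = #{g ∈ SL₂(ℤ) : g z ∈ D}` (finite, `≥ 1`, invariant),
`R` a finite set with `SL₂(ℤ) = ⨆_{r ∈ R} r Γ₀(N)`, `w z = (∑_{r ∈ R} 1_D (r z)) / Θ z`.
-/

set_option autoImplicit false
open UpperHalfPlane CongruenceSubgroup MeasureTheory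
open scoped MatrixGroups

namespace Fermat.Agent.S31lib

/-- weight functions -/
structure IsWeight (N : ℕ) (w : ℍ → ℝ) : Prop where
  measurable : Measurable w
  nonneg : ∀ z, 0 ≤ w z
  hasSum : ∀ z : ℍ, HasSum (fun γ : Gamma0 N => w ((γ : SL(2, ℤ)) • z)) 1
  integrable : Integrable w (volume : Measure ℍ)

open ModularGroup in
/-- P1a -/
theorem finite_setOf_smul_mem_fd (z : ℍ) : {g : SL(2, ℤ) | g • z ∈ ModularGroup.fd}.Finite := by
  obtain ⟨h, hh⟩ := exists_smul_mem_fd z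
  let L : List SL(2, ℤ) := [1, T, T⁻¹, S, T * S, T⁻¹ * S * T⁻¹, S * T⁻¹, S * T, T * S * T, T⁻¹ * S]
  have hF : {g : SL(2, ℤ) | g ∈ L ∨ -g ∈ L}.Finite := by
    refine Set.Finite.union (List.finite_toSet L) ?_
    refine ((List.finite_toSet L).image (fun g => -g)).subset ?_
    intro g hg
    exact ⟨-g, hg, neg_neg g⟩
  refine (hF.image (· * h)).subset ?_
  intro g hg
  refine ⟨g * h⁻¹, ?_, by simp⟩
  have h1 : (g * h⁻¹) • (h • z) ∈ fd := by
    rw [← mul_smul, inv_mul_cancel_right]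
    exact hg
  have h2 := cases_of_mem_fd_smul_mem_fd hh h1
  generalize g * h⁻¹ = k at h2
  show k ∈ L ∨ -k ∈ L
  simp only [L, List.mem_cons, List.not_mem_nil, or_false]
  rcases h2 with (rfl | rfl) | ⟨rfl | rfl, -⟩ | ⟨rfl | rfl, -⟩ | ⟨rfl | rfl, -⟩ | ⟨rfl | rfl, -⟩ |
    ⟨rfl | rfl, -⟩ | ⟨rfl | rfl, -⟩ | ⟨rfl | rfl, -⟩ | ⟨rfl | rfl, -⟩ | ⟨rfl | rfl, -⟩
  all_goals first
    | (left; simp only [true_or, or_true])
    | (right; simp only [neg_neg, true_or, or_true])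

theorem coe_fd_subset : ((↑) '' ModularGroup.fd : Set ℂ) ⊆
    Complex.measurableEquivRealProd ⁻¹' (Set.Icc (-(1 / 2) : ℝ) (1 / 2) ×ˢ Set.Ici (1 / 2 : ℝ)) := by
  rintro _ ⟨τ, hτ, rfl⟩
  have h1 := ModularGroup.three_le_four_mul_im_sq_of_mem_fd hτ
  have h2 : |τ.re| ≤ 1 / 2 := hτ.2
  have h3 := τ.im_pos
  simp only [Set.mem_preimage, Complex.measurableEquivRealProd_apply, Set.mem_prod, Set.mem_Icc,
    Set.mem_Ici]
  refine ⟨abs_le.mp h2, ?_⟩
  change 1 / 2 ≤ τ.im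
  nlinarith

theorem lintegral_Ici_lt_top :
    ∫⁻ y in Set.Ici (1 / 2 : ℝ), (((1 / ‖y‖₊) ^ 2 : NNReal) : ENNReal) < ⊤ := by
  have h1 : IntegrableOn (fun t : ℝ => t ^ (-2 : ℝ)) (Set.Ici (1 / 2 : ℝ)) :=
    (integrableOn_Ici_iff_integrableOn_Ioi).mpr
      (integrableOn_Ioi_rpow_of_lt (by norm_num) (by norm_num))
  have h2 := h1.setLIntegral_lt_top
  refine lt_of_eq_of_lt (setLIntegral_congr_fun measurableSet_Ici ?_) h2
  intro y hy
  have hy0 : (0 : ℝ) < y := lt_of_lt_of_le (by norm_num) hy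
  simp only
  rw [ENNReal.ofReal, ENNReal.coe_inj]
  apply NNReal.eq
  rw [Real.coe_toNNReal _ (by positivity)]
  push_cast
  rw [Real.norm_of_nonneg hy0.le, Real.rpow_neg hy0.le]
  simp

/-- P1b -/
theorem volume_fd_lt_top : (volume : Measure ℍ) ModularGroup.fd < ⊤ := by
  rw [volume_eq_lintegral]
  refine lt_of_le_of_lt (lintegral_mono_set coe_fd_subset) ?_
  have h1 := Complex.volume_preserving_equiv_real_prod.setLIntegral_comp_preimage_emb
    Complex.measurableEquivRealProd.measurableEmbedding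
    (fun p : ℝ × ℝ => (((1 / ‖p.2‖₊) ^ 2 : NNReal) : ENNReal))
    (Set.Icc (-(1 / 2) : ℝ) (1 / 2) ×ˢ Set.Ici (1 / 2 : ℝ))
  simp only [Complex.measurableEquivRealProd_apply] at h1
  rw [h1, Measure.volume_eq_prod, ← Measure.prod_restrict, lintegral_prod]
  · simp only
    rw [lintegral_const]
    refine ENNReal.mul_lt_top lintegral_Ici_lt_top ?_
    simp
  · apply Measurable.aemeasurable
    fun_prop

/-- P1c -/
theorem measurableSet_fd : MeasurableSet (ModularGroup.fd : Set ℍ) :=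
  ModularGroup.isClosed_fd.measurableSet

instance countable_SL : Countable SL(2, ℤ) :=
  @Function.Injective.countable SL(2, ℤ) (Fin 2 → Fin 2 → ℤ) inferInstance
    (fun g => g.1) (fun _ _ h => Subtype.ext h)

theorem measurePreserving_SL_smul (g : SL(2, ℤ)) :
    MeasurePreserving (fun z : ℍ => g • z) volume volume :=
  measurePreserving_smul (g : GL (Fin 2) ℝ) volume

theorem measurable_SL_smul (g : SL(2, ℤ)) : Measurable (fun z : ℍ => g • z) :=
  (measurePreserving_SL_smul g).measurable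

/-- indicator of the fundamental domain -/
noncomputable def ind (z : ℍ) : ENNReal := ModularGroup.fd.indicator 1 z

theorem measurable_ind : Measurable ind :=
  measurable_one.indicator measurableSet_fd

theorem ind_le_one (z : ℍ) : ind z ≤ 1 := by
  unfold ind
  by_cases h : z ∈ ModularGroup.fd <;> simp [h]

/-- the number of `g` with `g z ∈ 𝒟` -/
noncomputable def cnt (z : ℍ) : ENNReal := ∑' g : SL(2, ℤ), ind (g • z)

theorem measurable_cnt : Measurable cnt :=
  Measurable.tsum fun g => measurable_ind.comp (measurable_SL_smul g)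

theorem cnt_smul (h : SL(2, ℤ)) (z : ℍ) : cnt (h • z) = cnt z := by
  unfold cnt
  rw [← (Equiv.mulRight h).tsum_eq (fun g => ind (g • z))]
  simp [mul_smul]

theorem one_le_cnt (z : ℍ) : 1 ≤ cnt z := by
  obtain ⟨g, hg⟩ := ModularGroup.exists_smul_mem_fd z
  have h1 : ind (g • z) = 1 := Set.indicator_of_mem hg _
  rw [← h1]
  exact ENNReal.le_tsum g

theorem cnt_ne_top (z : ℍ) : cnt z ≠ ⊤ := by
  unfold cnt
  rw [tsum_eq_sum (s := (finite_setOf_smul_mem_fd z).toFinset)]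
  · exact (ENNReal.sum_lt_top.mpr fun g _ => lt_of_le_of_lt (ind_le_one _) ENNReal.one_lt_top).ne
  · intro g hg
    simp only [Set.Finite.mem_toFinset, Set.mem_ofPred_eq] at hg
    exact Set.indicator_of_notMem hg _

/-- the weight function for `SL(2,ℤ)` -/
noncomputable def w1 (z : ℍ) : ENNReal := ind z * (cnt z)⁻¹

theorem measurable_w1 : Measurable w1 := measurable_ind.mul measurable_cnt.inv

theorem w1_le_ind (z : ℍ) : w1 z ≤ ind z := by
  unfold w1
  calc ind z * (cnt z)⁻¹ ≤ ind z * 1 := by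
        gcongr
        exact ENNReal.inv_le_one.mpr (one_le_cnt z)
    _ = ind z := mul_one _

theorem tsum_w1 (z : ℍ) : ∑' g : SL(2, ℤ), w1 (g • z) = 1 := by
  simp only [w1, cnt_smul]
  rw [ENNReal.tsum_mul_right]
  exact ENNReal.mul_inv_cancel (fun h => by
    have := one_le_cnt z
    unfold cnt at this
    rw [h] at this
    simp at this) (cnt_ne_top z)

theorem lintegral_w1_lt_top : ∫⁻ z, w1 z < ⊤ := by
  refine lt_of_le_of_lt (lintegral_mono w1_le_ind) ?_
  unfold ind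
  rw [lintegral_indicator_one measurableSet_fd]
  exact volume_fd_lt_top

/-- the weight function for a subgroup -/
noncomputable def wG (Γ : Subgroup SL(2, ℤ)) (z : ℍ) : ENNReal :=
  ∑' q : SL(2, ℤ) ⧸ Γ, w1 (q.out • z)

instance countable_SL_quot (Γ : Subgroup SL(2, ℤ)) : Countable (SL(2, ℤ) ⧸ Γ) :=
  (QuotientGroup.mk_surjective (s := Γ)).countable

theorem measurable_wG (Γ : Subgroup SL(2, ℤ)) : Measurable (wG Γ) :=
  Measurable.tsum fun q => measurable_w1.comp (measurable_SL_smul q.out)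

theorem bijective_out_mul (Γ : Subgroup SL(2, ℤ)) :
    Function.Bijective (fun p : (SL(2, ℤ) ⧸ Γ) × Γ => p.1.out * (p.2 : SL(2, ℤ))) := by
  constructor
  · rintro ⟨q, γ⟩ ⟨q', γ'⟩ h
    simp only at h
    have h1 : q = q' := by
      have := congrArg (QuotientGroup.mk (s := Γ)) h
      rwa [QuotientGroup.mk_mul_of_mem _ γ.2, QuotientGroup.mk_mul_of_mem _ γ'.2,
        QuotientGroup.out_eq', QuotientGroup.out_eq'] at this
    subst h1
    have h2 : γ = γ' := Subtype.ext (mul_left_cancel h)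
    rw [h2]
  · intro g
    refine ⟨(QuotientGroup.mk g, ⟨(QuotientGroup.mk g : SL(2, ℤ) ⧸ Γ).out⁻¹ * g,
      QuotientGroup.eq.mp (QuotientGroup.out_eq' _)⟩), ?_⟩
    simp

theorem tsum_wG (Γ : Subgroup SL(2, ℤ)) (z : ℍ) :
    ∑' γ : Γ, wG Γ ((γ : SL(2, ℤ)) • z) = 1 := by
  rw [← tsum_w1 z, ← (Equiv.ofBijective _ (bijective_out_mul Γ)).tsum_eq,
    ENNReal.tsum_prod', ENNReal.tsum_comm]
  refine tsum_congr fun γ => ?_
  unfold wG
  refine tsum_congr fun q => ?_
  rw [← mul_smul]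
  rfl

theorem wG_ne_top (Γ : Subgroup SL(2, ℤ)) (z : ℍ) : wG Γ z ≠ ⊤ := by
  have h1 : wG Γ (((1 : Γ) : SL(2, ℤ)) • z) ≤ 1 := by
    rw [← tsum_wG Γ z]
    exact ENNReal.le_tsum (f := fun γ : Γ => wG Γ ((γ : SL(2, ℤ)) • z)) 1
  rw [Subgroup.coe_one, one_smul] at h1
  exact (lt_of_le_of_lt h1 ENNReal.one_lt_top).ne

theorem lintegral_wG_lt_top (Γ : Subgroup SL(2, ℤ)) [Γ.FiniteIndex] : ∫⁻ z, wG Γ z < ⊤ := by
  unfold wG
  have hm : ∀ q : SL(2, ℤ) ⧸ Γ, AEMeasurable (fun z : ℍ => w1 (q.out • z)) volume :=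
    fun q => (measurable_w1.comp (measurable_SL_smul q.out)).aemeasurable
  rw [lintegral_tsum hm]
  have h1 : ∀ q : SL(2, ℤ) ⧸ Γ, ∫⁻ z, w1 (q.out • z) = ∫⁻ z, w1 z := fun q =>
    (measurePreserving_SL_smul q.out).lintegral_comp measurable_w1
  simp only [h1]
  have : Fintype (SL(2, ℤ) ⧸ Γ) := Fintype.ofFinite _
  rw [tsum_fintype]
  exact ENNReal.sum_lt_top.mpr fun _ _ => lintegral_w1_lt_top

/-- P1 -/
theorem exists_isWeight (N : ℕ) [NeZero N] : ∃ w : ℍ → ℝ, IsWeight N w := by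
  refine ⟨fun z => (wG (Gamma0 N) z).toReal, (measurable_wG _).ennreal_toReal,
    fun z => ENNReal.toReal_nonneg, fun z => ?_, ?_⟩
  · have h1 := ENNReal.hasSum_toReal (f := fun γ : Gamma0 N => wG (Gamma0 N) ((γ : SL(2, ℤ)) • z))
      (by rw [tsum_wG]; exact ENNReal.one_ne_top)
    rw [← ENNReal.tsum_toReal_eq (fun γ => wG_ne_top _ _), tsum_wG] at h1
    simpa using h1
  · exact integrable_toReal_of_lintegral_ne_top (measurable_wG _).aemeasurable
      (lintegral_wG_lt_top _).ne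

end Fermat.Agent.S31lib
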